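import Mathlib

/-!
# S36 / R3 (helper803): the order function of a component at a closed point

`B` a commutative ring, `p` a prime ("component"), `n` a maximal ideal ("closed point") with
`p ≤ n`.  `ordAt p n a : ℕ∞` is the order at `n` of the restriction of `a` to the component `p`:
the multiplicity of the ideal `n / p` in the ideal `(a mod p)` of `B ⧸ p`.

If `B ⧸ p` is a Dedekind domain and `p ≠ n`, then `ordAt p n` is an *order function at `n`*:
multiplicative, `0` off `n`, `≥ 1` on `n`, `⊤` exactly on `p`; and if `p'` is a second prime with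
`p' ≤ n`, `¬ p' ≤ p` and `p' ⊔ p` radical (transversal crossing), some `x ∈ p'` has
`ordAt p n x = 1`.

Mathlib only.
-/

set_option autoImplicit false
set_option linter.unusedSectionVars false
set_option linter.unusedVariables false

namespace Fermat.Agent.S36.H803

open Ideal

variable {B : Type*} [CommRing B]

/-- The order at the closed point `n` of the restriction of `a` to the component `p`. -/
noncomputable def ordAt (p n : Ideal B) (a : B) : ℕ∞ :=
  emultiplicity (n.map (Ideal.Quotient.mk p)) (Ideal.span {Ideal.Quotient.mk p a})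

section Basic

variable (p n : Ideal B)

theorem map_mk_isMaximal [hn : n.IsMaximal] (hpn : p ≤ n) :
    (n.map (Ideal.Quotient.mk p)).IsMaximal := by
  have hsurj : Function.Surjective (Ideal.Quotient.mk p) := Ideal.Quotient.mk_surjective
  rcases Ideal.map_eq_top_or_isMaximal_of_surjective (Ideal.Quotient.mk p) hsurj hn with h | h
  · exfalso
    have h1 : (n.map (Ideal.Quotient.mk p)).comap (Ideal.Quotient.mk p) = n := by
      rw [Ideal.comap_map_of_surjective _ hsurj, ← RingHom.ker_eq_comap_bot, Ideal.mk_ker]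
      exact sup_eq_left.2 hpn
    rw [h, Ideal.comap_top] at h1
    exact hn.ne_top h1.symm
  · exact h

theorem mem_map_mk_iff (hpn : p ≤ n) (a : B) :
    Ideal.Quotient.mk p a ∈ n.map (Ideal.Quotient.mk p) ↔ a ∈ n := by
  have hsurj : Function.Surjective (Ideal.Quotient.mk p) := Ideal.Quotient.mk_surjective
  have h1 : (n.map (Ideal.Quotient.mk p)).comap (Ideal.Quotient.mk p) = n := by
    rw [Ideal.comap_map_of_surjective _ hsurj, ← RingHom.ker_eq_comap_bot, Ideal.mk_ker]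
    exact sup_eq_left.2 hpn
  constructor
  · intro h
    rw [← h1]
    exact h
  · intro h
    exact Ideal.mem_map_of_mem _ h

theorem map_mk_ne_bot (hne : ∃ a ∈ n, a ∉ p) : n.map (Ideal.Quotient.mk p) ≠ ⊥ := by
  obtain ⟨a, han, hap⟩ := hne
  intro h
  have h1 : Ideal.Quotient.mk p a ∈ n.map (Ideal.Quotient.mk p) := Ideal.mem_map_of_mem _ han
  rw [h, Ideal.mem_bot, Ideal.Quotient.eq_zero_iff_mem] at h1
  exact hap h1

end Basic

section Dedekind

variable (p n : Ideal B) [hp : p.IsPrime] [hn : n.IsMaximal] [IsDedekindDomain (B ⧸ p)]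

theorem prime_map_mk (hpn : p ≤ n) (hne : ∃ a ∈ n, a ∉ p) :
    Prime (n.map (Ideal.Quotient.mk p)) :=
  Ideal.prime_of_isPrime (map_mk_ne_bot p n hne) (map_mk_isMaximal p n hpn).isPrime

/-- `ordAt` is multiplicative. -/
theorem ordAt_mul (hpn : p ≤ n) (hne : ∃ a ∈ n, a ∉ p) (a b : B) :
    ordAt p n (a * b) = ordAt p n a + ordAt p n b := by
  unfold ordAt
  rw [map_mul, ← Ideal.span_singleton_mul_span_singleton]
  exact emultiplicity_mul (prime_map_mk p n hpn hne)

/-- `ordAt` vanishes off `n`. -/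
theorem ordAt_eq_zero_of_notMem (hpn : p ≤ n) {a : B} (ha : a ∉ n) : ordAt p n a = 0 := by
  unfold ordAt
  rw [emultiplicity_eq_zero, Ideal.dvd_span_singleton, mem_map_mk_iff p n hpn]
  exact ha

/-- `ordAt` is positive on `n`. -/
theorem one_le_ordAt_of_mem (hpn : p ≤ n) {a : B} (ha : a ∈ n) : 1 ≤ ordAt p n a := by
  unfold ordAt
  have h : (n.map (Ideal.Quotient.mk p)) ^ 1 ∣ Ideal.span {Ideal.Quotient.mk p a} := by
    rw [pow_one, Ideal.dvd_span_singleton, mem_map_mk_iff p n hpn]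
    exact ha
  have := pow_dvd_iff_le_emultiplicity.1 h
  simpa using this

/-- `ordAt p n a ≥ k` iff `a ∈ p + n ^ k`. -/
theorem le_ordAt_iff (hpn : p ≤ n) (a : B) (k : ℕ) :
    (k : ℕ∞) ≤ ordAt p n a ↔ a ∈ p ⊔ n ^ k := by
  unfold ordAt
  rw [← pow_dvd_iff_le_emultiplicity, Ideal.dvd_span_singleton, ← Ideal.map_pow]
  have hsurj : Function.Surjective (Ideal.Quotient.mk p) := Ideal.Quotient.mk_surjective
  constructor
  · intro h
    have h1 : a ∈ ((n ^ k).map (Ideal.Quotient.mk p)).comap (Ideal.Quotient.mk p) := h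
    rw [Ideal.comap_map_of_surjective _ hsurj, ← RingHom.ker_eq_comap_bot, Ideal.mk_ker] at h1
    rwa [sup_comm]
  · intro h
    have h1 : a ∈ ((n ^ k).map (Ideal.Quotient.mk p)).comap (Ideal.Quotient.mk p) := by
      rw [Ideal.comap_map_of_surjective _ hsurj, ← RingHom.ker_eq_comap_bot, Ideal.mk_ker]
      rwa [sup_comm]
    exact h1

/-- `ordAt p n a = ⊤` iff `a ∈ p`. -/
theorem ordAt_eq_top_iff (hpn : p ≤ n) (hne : ∃ a ∈ n, a ∉ p) (a : B) :
    ordAt p n a = ⊤ ↔ a ∈ p := by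
  unfold ordAt
  constructor
  · intro h
    by_contra hap
    have h0 : Ideal.span {Ideal.Quotient.mk p a} ≠ 0 := by
      rw [Ne, Ideal.zero_eq_bot, Ideal.span_singleton_eq_bot, Ideal.Quotient.eq_zero_iff_mem]
      exact hap
    have hfin : FiniteMultiplicity (n.map (Ideal.Quotient.mk p))
        (Ideal.span {Ideal.Quotient.mk p a}) :=
      FiniteMultiplicity.of_prime_left (prime_map_mk p n hpn hne) h0
    exact (finiteMultiplicity_iff_emultiplicity_ne_top.1 hfin) h
  · intro hap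
    have h0 : Ideal.Quotient.mk p a = 0 := Ideal.Quotient.eq_zero_iff_mem.2 hap
    rw [h0, emultiplicity_eq_top]
    intro hfin
    have : Ideal.span {(0 : B ⧸ p)} = 0 := by
      rw [Ideal.zero_eq_bot, Ideal.span_singleton_eq_bot]
    rw [this] at hfin
    exact hfin.ne_zero rfl

/-- **Transversality gives a uniformiser.**  If `p'` is a second component through `n`, not
contained in `p`, and `p' ⊔ p` is radical, then some `x ∈ p'` restricts to a uniformiser of the
component `p` at `n`. -/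
theorem exists_mem_ordAt_eq_one (hpn : p ≤ n) (p' : Ideal B) (hp'n : p' ≤ n)
    (hp'p : ¬ p' ≤ p) (hrad : (p' ⊔ p).IsRadical) :
    ∃ x ∈ p', ordAt p n x = 1 := by
  classical
  have hsurj : Function.Surjective (Ideal.Quotient.mk p) := Ideal.Quotient.mk_surjective
  have hne : ∃ a ∈ n, a ∉ p := by
    by_contra h
    push Not at h
    exact hp'p (fun a ha => h a (hp'n ha))
  by_contra hcon
  push Not at hcon
  -- every element of `p'` has order `≥ 2`
  have h2 : ∀ x ∈ p', x ∈ p ⊔ n ^ 2 := by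
    intro x hx
    rw [← le_ordAt_iff p n hpn x 2]
    have h1 := one_le_ordAt_of_mem p n hpn (hp'n hx)
    have hne1 := hcon x hx
    by_contra hlt
    rw [not_le] at hlt
    have : ordAt p n x < ((1 : ℕ) : ℕ∞) + 1 := by
      have e : ((2 : ℕ) : ℕ∞) = ((1 : ℕ) : ℕ∞) + 1 := by norm_num
      rwa [e] at hlt
    have hle : ordAt p n x ≤ ((1 : ℕ) : ℕ∞) := Order.le_of_lt_add_one this
    exact hne1 (le_antisymm (by simpa using hle) h1)
  set 𝔫 : Ideal (B ⧸ p) := n.map (Ideal.Quotient.mk p) with h𝔫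
  set I : Ideal (B ⧸ p) := p'.map (Ideal.Quotient.mk p) with hI
  have h𝔫prime : Prime 𝔫 := prime_map_mk p n hpn hne
  have hI0 : I ≠ ⊥ := by
    intro h
    apply hp'p
    intro a ha
    have h1 : Ideal.Quotient.mk p a ∈ I := Ideal.mem_map_of_mem _ ha
    rw [h, Ideal.mem_bot, Ideal.Quotient.eq_zero_iff_mem] at h1
    exact h1
  have hIrad : I.IsRadical := by
    intro y hy
    obtain ⟨k, hk⟩ := hy
    obtain ⟨b, rfl⟩ := hsurj y
    have h1 : b ^ k ∈ I.comap (Ideal.Quotient.mk p) := by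
      show Ideal.Quotient.mk p (b ^ k) ∈ I
      rw [map_pow]
      exact hk
    rw [hI, Ideal.comap_map_of_surjective _ hsurj, ← RingHom.ker_eq_comap_bot,
      Ideal.mk_ker] at h1
    have h3 : b ∈ p' ⊔ p := hrad ⟨k, h1⟩
    have h4 : b ∈ (p'.map (Ideal.Quotient.mk p)).comap (Ideal.Quotient.mk p) := by
      rw [Ideal.comap_map_of_surjective _ hsurj, ← RingHom.ker_eq_comap_bot, Ideal.mk_ker]
      exact h3
    exact h4
  have hIle : I ≤ 𝔫 ^ 2 := by
    rw [hI, Ideal.map_le_iff_le_comap]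
    intro x hx
    have h3 := h2 x hx
    show Ideal.Quotient.mk p x ∈ 𝔫 ^ 2
    rw [h𝔫, ← Ideal.map_pow]
    have : x ∈ ((n ^ 2).map (Ideal.Quotient.mk p)).comap (Ideal.Quotient.mk p) := by
      rw [Ideal.comap_map_of_surjective _ hsurj, ← RingHom.ker_eq_comap_bot, Ideal.mk_ker]
      rwa [sup_comm]
    exact this
  -- `𝔫 ^ 2 ∣ I`, so `I = 𝔫 ^ 2 * J`
  obtain ⟨J, hJ⟩ := Ideal.dvd_iff_le.2 hIle
  have hJ0 : J ≠ ⊥ := by
    intro h
    apply hI0
    rw [hJ, h, Ideal.mul_bot]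
  -- `𝔫 * J ≤ rad I = I`
  have h5 : 𝔫 * J ≤ I := by
    intro y hy
    apply hIrad
    refine ⟨2, ?_⟩
    have : y ^ 2 ∈ (𝔫 * J) ^ 2 := Ideal.pow_mem_pow hy 2
    have h6 : (𝔫 * J) ^ 2 ≤ I := by
      rw [hJ, mul_pow]
      calc 𝔫 ^ 2 * J ^ 2 = (𝔫 ^ 2 * J) * J := by rw [pow_two J, mul_assoc]
        _ ≤ 𝔫 ^ 2 * J := Ideal.mul_le_left
    exact h6 this
  -- hence `𝔫 ^ 2 * J ∣ 𝔫 * J`, i.e. `𝔫 ∣ 1`
  have h7 : 𝔫 ^ 2 * J ∣ 𝔫 * J := by
    rw [← hJ]
    exact Ideal.dvd_iff_le.2 h5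
  have h𝔫0 : 𝔫 ≠ 0 := h𝔫prime.ne_zero
  have hJ0' : J ≠ 0 := hJ0
  have h8 : 𝔫 * (𝔫 * J) ∣ 1 * (𝔫 * J) := by
    rw [one_mul, ← mul_assoc, ← pow_two]
    exact h7
  have h9 : 𝔫 ∣ 1 := (mul_dvd_mul_iff_right (mul_ne_zero h𝔫0 hJ0')).1 h8
  exact h𝔫prime.not_isUnit (isUnit_of_dvd_one h9)

end Dedekind

end Fermat.Agent.S36.H803
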