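import Fermat.Agent.S36.H803.Squeeze
import Fermat.Agent.A2.Alg.H609.ChartFacts

/-!
# S36 / R3 (helper803): THICK1 on a semistable chart (ALG setting of cell A2)

`R` a discrete valuation ring with uniformiser `w`, `B` a chart of a function field `F / E`
(`ChartCtx`), `c : SSChart w B` its two components.  For a unit pair `(D, D')`
(`D * D' = ε * w ^ N`, `D' ∉ p₁`, `D ∉ p₂`):

* `ordAt_le_of_ssChart` : `ord_n(D|C₂) ≤ N` at every node;
* `th1_of_ssChart` : DEG0 (`∑_{n ∈ s} ord_n(D|C₂) = Z`) and COUNT (`N * #s ≤ Z`) imply that BOTH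
  components are locally principal at every node `n ∈ s` (the chart is regular at `n`).
-/

set_option autoImplicit false
set_option linter.unusedSectionVars false
set_option linter.unusedVariables false
set_option linter.style.haveILetI false

namespace Fermat.Agent.S36.H803

open Fermat.Agent.A2 Fermat.Agent.A2.Alg

variable {R E F : Type*} [CommRing R] [IsDomain R] [IsDiscreteValuationRing R]
  [Field E] [CharZero E] [Algebra R E] [IsFractionRing R E]
  [Field F] [Algebra E F] [Algebra R F] [IsScalarTower R E F]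

/-- The unit pair hypotheses on a semistable chart. -/
structure ChartUnitPair (w : R) (B : Subalgebra R F) (c : SSChart w B) (D D' : B) (N : ℕ) :
    Prop where
  pos : 0 < N
  eq : ∃ ε : B, IsUnit ε ∧ D * D' = ε * algebraMap R B w ^ N
  notMem₁ : D' ∉ c.p₁
  notMem₂ : D ∉ c.p₂

omit [CharZero E] [IsFractionRing R E] [IsScalarTower R E F] [IsDiscreteValuationRing R] in
theorem ChartUnitPair.unitPair {w : R} {B : Subalgebra R F} {c : SSChart w B} {D D' : B}
    {N : ℕ} (h : ChartUnitPair w B c D D' N) :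
    haveI := c.prime₁
    haveI := c.prime₂
    UnitPair (algebraMap R B w) c.p₁ c.p₂ D D' N := by
  haveI := c.prime₁
  haveI := c.prime₂
  refine ⟨?_, c.inf_eq, c.not_le₁₂, c.not_le₂₁, h.pos, h.eq, h.notMem₁, h.notMem₂⟩
  intro hw0
  obtain ⟨ε, -, heq⟩ := h.eq
  rw [hw0, zero_pow h.pos.ne', mul_zero] at heq
  rcases mul_eq_zero.1 heq with h0 | h0
  · exact h.notMem₂ (h0 ▸ c.p₂.zero_mem)
  · exact h.notMem₁ (h0 ▸ c.p₁.zero_mem)

/-- **Local upper bound** on a semistable chart. -/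
theorem ordAt_le_of_ssChart (w : R) (x : F) (B : Subalgebra R F) (hB : ChartCtx E w x B)
    (c : SSChart w B) (D D' : B) (N : ℕ) (h : ChartUnitPair w B c D D' N)
    (n : Ideal B) (hn : n.IsMaximal) (h₁ : c.p₁ ≤ n) (h₂ : c.p₂ ≤ n) :
    ordAt c.p₂ n D ≤ N := by
  obtain ⟨hnoeth, hic, hfrac⟩ := H34.chart_instances' w x B hB
  haveI := c.prime₁
  haveI := c.prime₂
  haveI : IsIntegrallyClosed (B ⧸ c.p₂) := c.normal₂
  have hw : algebraMap R B w ∈ c.p₁ ⊓ c.p₂ := by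
    rw [c.inf_eq]
    exact Ideal.mem_span_singleton_self _
  haveI : IsDedekindDomain (B ⧸ c.p₂) :=
    H609.isDedekindDomain_quotient_chart w x B hB c.p₂ hw.2
  exact h.unitPair.ordAt_le F c.transversal n h₁ h₂

/-- **THICK1 on a semistable chart**: DEG0 + COUNT ⟹ both components are locally principal at
every node of `s`. -/
theorem th1_of_ssChart (w : R) (x : F) (B : Subalgebra R F) (hB : ChartCtx E w x B)
    (c : SSChart w B) (D D' : B) (N : ℕ) (h : ChartUnitPair w B c D D' N)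
    (s : Finset (Ideal B)) (hs : ∀ n ∈ s, n.IsMaximal ∧ c.p₁ ≤ n ∧ c.p₂ ≤ n)
    (Z : ℕ) (hdeg : ∑ n ∈ s, ordAt c.p₂ n D = Z) (hcount : N * s.card ≤ Z) :
    ∀ n ∈ s,
      (∃ x₁ ∈ c.p₁, ∀ a ∈ c.p₁, ∃ g : B, g ∉ n ∧ ∃ b : B, g * a = x₁ * b) ∧
      (∃ x₂ ∈ c.p₂, ∀ a ∈ c.p₂, ∃ g : B, g ∉ n ∧ ∃ b : B, g * a = x₂ * b) := by
  obtain ⟨hnoeth, hic, hfrac⟩ := H34.chart_instances' w x B hB
  haveI := c.prime₁
  haveI := c.prime₂
  haveI : IsIntegrallyClosed (B ⧸ c.p₂) := c.normal₂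
  have hw : algebraMap R B w ∈ c.p₁ ⊓ c.p₂ := by
    rw [c.inf_eq]
    exact Ideal.mem_span_singleton_self _
  haveI : IsDedekindDomain (B ⧸ c.p₂) :=
    H609.isDedekindDomain_quotient_chart w x B hB c.p₂ hw.2
  intro n hn
  obtain ⟨x₁, hx₁, hgen⟩ := h.unitPair.th1_abs F c.transversal s hs Z hdeg hcount n hn
  obtain ⟨hmax, h₁, h₂⟩ := hs n hn
  haveI := hmax.isPrime
  obtain ⟨y, hy, -, hgen₂⟩ := snd_of_fst c.inf_eq c.not_le₁₂ n h₂ x₁ hx₁ hgen
  exact ⟨⟨x₁, hx₁, hgen⟩, ⟨y, hy, hgen₂⟩⟩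

end Fermat.Agent.S36.H803
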