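import Fermat.Agent.S36.H803.R3Spec
import Fermat.Agent.S36.H803.Th1Alg
import Fermat.Agent.A2.Mod.H708.Vinf

/-!
# S36 / cell REG, route R3 — the ASSEMBLY `MU + DEG0 + GUB ⟹ TH1` (helper803)

`mu : MuStatement` (from `H438.mu_package`) and
`th1_of_leaves : Deg0Statement → GubStatement → Th1Statement`, sorry-free.
-/

set_option autoImplicit false
set_option linter.unusedSectionVars false
set_option linter.unusedVariables false
set_option linter.style.haveILetI false
set_option synthInstance.maxHeartbeats 400000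
set_option maxHeartbeats 1600000

noncomputable section

namespace Fermat.Agent.S36.H803

open ModularCurve Fermat.Agent.A2.Mod

variable (P : ValuationSubring Qb) (E : IntermediateField ℚ Qb) (M q : ℕ) [NeZero M] [NeZero q]
  (w : RE P E)

/-- A cut is determined by its valuation ring. -/
theorem isCut_unique {N : ℕ} {V : ValuationSubring (FE E N)}
    {B : Subalgebra (RE P E) (FE E N)} {p p' : Ideal B}
    (h : IsCut P E N w V B p) (h' : IsCut P E N w V B p') : p = p' := by
  ext b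
  rw [h b, h' b]

/-- The semistable chart with PRESCRIBED components. -/
theorem exists_ssChart_of_components (hyp : R3Hyp P E M q w)
    (p₁ p₂ : Ideal (Bfin P E M q)) (hcomp : IsComponents P E M q w p₁ p₂) :
    ∃ c : Fermat.Agent.A2.SSChart w (Bfin P E M q), c.p₁ = p₁ ∧ c.p₂ = p₂ := by
  obtain ⟨V, W, hV, hW, hc₁, hc₂⟩ := hcomp
  obtain ⟨VM, hVM⟩ := hyp.vinfM
  have hy' : IsCoord E M q (xE E M q) := Or.inl rfl
  have hy : IsCoordPair E M q (jE E M 1 (one_dvd _)) (xE E M q) := Or.inl ⟨rfl, rfl⟩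
  have hgood := (hyp.goodRed w VM hyp.setting.unif hVM).1
  obtain ⟨p₁', p₂', hc₁', hc₂', hp₁, hp₂, h₁₂, h₂₁, hinf⟩ :=
    hyp.s1 hyp.setting V W hV hW (xE E M q) hy'
  have e₁ : p₁' = p₁ := isCut_unique P E w hc₁' hc₁
  have e₂ : p₂' = p₂ := isCut_unique P E w hc₂' hc₂
  subst e₁ e₂
  obtain ⟨hn₁, hn₂⟩ :=
    hyp.s2 hyp.setting VM V W hVM hV hW _ (xE E M q) hy hgood p₁' p₂' hc₁ hc₂
  have hrad := hyp.s3 hyp.setting VM V W hVM hV hW _ (xE E M q) hy hgood p₁' p₂' hc₁ hc₂
  exact ⟨{ p₁ := p₁'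
           p₂ := p₂'
           prime₁ := hp₁
           prime₂ := hp₂
           ne := fun h => h₁₂ (h ▸ le_refl p₁')
           not_le₁₂ := h₁₂
           not_le₂₁ := h₂₁
           inf_eq := hinf
           normal₁ := hn₁
           normal₂ := hn₂
           transversal := hrad }, rfl, rfl⟩

/-- The chart context of the finite chart. -/
theorem chartCtx_bfin (hyp : R3Hyp P E M q w) :
    Fermat.Agent.A2.Alg.ChartCtx E w (xE E M q) (Bfin P E M q) := by
  obtain ⟨hx, hfr, hconst⟩ := hyp.deg hyp.setting.q_prime hyp.setting.q_not_dvd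
  have hpos : 0 < Module.finrank (IntermediateField.adjoin E ({xE E M q} : Set (FE E (M * q))))
      (FE E (M * q)) := by
    rw [hfr]
    have h1 := dedekindPsi_pos_of_ne_zero M (NeZero.ne M)
    positivity
  exact
    { hw := hyp.setting.unif
      hx := hx
      hfin := Module.finite_of_finrank_pos hpos
      hconst := hconst
      hB := fun _ => Iff.rfl }

/-- `D * D' = q ^ 12` in the chart. -/
theorem mul_eq_of_isD {D D' : Bfin P E M q} (hD : IsD E M q (D : FE E (M * q)))
    (hD' : IsD' E M q (D' : FE E (M * q))) :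
    D * D' = algebraMap (RE P E) (Bfin P E M q) (((q : ℕ) : RE P E) ^ 12) := by
  apply Subtype.ext
  apply Subtype.ext
  show ((D : FE E (M * q)) : LaurentSeries E) * ((D' : FE E (M * q)) : LaurentSeries E) = _
  rw [hD, hD', ← map_mul, mul_assoc, Fermat.Agent.S36.H438.unitL_mul_unitL', mul_one,
    map_pow, map_natCast]
  have h1 : (((algebraMap (RE P E) (Bfin P E M q) (((q : ℕ) : RE P E) ^ 12) : Bfin P E M q) :
      FE E (M * q)) : LaurentSeries E)
      = algebraMap E (LaurentSeries E) ((((q : ℕ) : RE P E) ^ 12 : RE P E) : E) := rfl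
  rw [h1]
  push_cast
  rfl

/-- `w⁻¹ ∉ V∞`. -/
theorem inv_cE_notMem (hyp : R3Hyp P E M q w) {V : ValuationSubring (FE E (M * q))}
    (hV : IsVinf P E (M * q) V) : (cE P E (M * q) w)⁻¹ ∉ V := by
  haveI := hyp.setting.dvr
  intro h
  have h1 : (cE P E (M * q) w)⁻¹ = algebraMap E (FE E (M * q)) ((w : E)⁻¹) := by
    rw [cE, map_inv₀]
  rw [h1, Fermat.Agent.A2.Mod.H708.algebraMap_mem_iff_of_isVinf hV] at h
  -- `w` is then a unit of `R_E`
  have hw0 : (w : E) ≠ 0 := fun h0 => hyp.setting.unif.ne_zero (Subtype.ext h0)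
  apply hyp.setting.unif.not_isUnit
  refine IsUnit.of_mul_eq_one ⟨(w : E)⁻¹, h⟩ ?_
  exact Subtype.ext (mul_inv_cancel₀ hw0)

/-- **Leaf MU**, from `H438.mu_package`. -/
theorem mu : MuStatement P E M q w := by
  intro hyp
  obtain ⟨D, D', hD, hD', -, hDB, hD'B, hinf, hzero, -⟩ :=
    Fermat.Agent.S36.H438.mu_package P E M q hyp.setting.q_prime
  refine ⟨⟨D, hDB⟩, ⟨D', hD'B⟩, hD, hD', ?_⟩
  rintro p₁ p₂ ⟨V, W, hV, hW, hc₁, hc₂⟩
  constructor
  · intro hmem
    have h1 : InW P E (M * q) V w D' := (hc₁ ⟨D', hD'B⟩).1 hmem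
    have h2 := V.mul_mem _ _ (hinf V hV).2 h1
    have hD'0 : D' ≠ 0 := by
      rintro rfl
      have := (hinf V hV).2
      rw [inv_zero] at this
      have h3 : InW P E (M * q) V w (0 : FE E (M * q)) := h1
      -- `D' = 0` contradicts `D * D' = q ^ 12 ≠ 0`; use the expansion instead
      have h4 := hD'
      have h5 : Fermat.Agent.S36.H438.castE E (Fermat.Agent.S28.unitL ℤ q) *
          Fermat.Agent.S36.H438.castE E (Fermat.Agent.S28.H589.unitL' q) = 1 :=
        Fermat.Agent.S36.H438.castE_mul_castE' E q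
      rw [← h4] at h5
      simp at h5
    unfold InW at h1
    rw [← mul_assoc, inv_mul_cancel₀ hD'0, one_mul] at h2
    exact inv_cE_notMem P E M q w hyp hV h2
  · intro hmem
    have h1 : InW P E (M * q) (V.comap (W : FE E (M * q) →+* FE E (M * q))) w D :=
      (hc₂ ⟨D, hDB⟩).1 hmem
    have hz := hzero V W hV hW
    have hD0 : D ≠ 0 := by
      have hDe : D = Fermat.Agent.S36.H438.dE E (M * q) q (dvd_mul_left q M) := by
        apply Subtype.ext
        rw [Fermat.Agent.S36.H438.coe_dE]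
        exact hD
      rw [hDe]
      exact Fermat.Agent.S36.H438.dE_ne_zero E (M * q) q (dvd_mul_left q M)
    have h2 := (V.comap (W : FE E (M * q) →+* FE E (M * q))).mul_mem _ _ hz.2 h1
    rw [← mul_assoc, inv_mul_cancel₀ hD0, one_mul] at h2
    have h3 : (W : FE E (M * q) →+* FE E (M * q)) (cE P E (M * q) w)⁻¹ ∈ V := h2
    have h4 : (W : FE E (M * q) →+* FE E (M * q)) (cE P E (M * q) w)⁻¹
        = (cE P E (M * q) w)⁻¹ := by
      rw [map_inv₀]
      congr 1
      exact W.commutes _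
    rw [h4] at h3
    exact inv_cE_notMem P E M q w hyp hV h3

/-- **R3 assembly**: `MU + DEG0 + GUB ⟹ TH1`. -/
theorem th1_of_leaves' (hMU : MuStatement P E M q w) (hDEG : Deg0Statement P E M q w)
    (hGUB : GubStatement P E M q w) : Th1Statement P E M q w := by
  intro hyp hunr hrig p₁ p₂ hcomp n hn
  haveI := hyp.setting.dvr
  obtain ⟨c, rfl, rfl⟩ := exists_ssChart_of_components P E M q w hyp p₁ p₂ hcomp
  obtain ⟨D, D', hD, hD', hmu⟩ := hMU hyp
  obtain ⟨hD'₁, hD₂⟩ := hmu c.p₁ c.p₂ hcomp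
  obtain ⟨s, hs, hsum⟩ := hDEG hyp D hD c.p₁ c.p₂ hcomp
  have hcount := hGUB hyp hrig c.p₁ c.p₂ hcomp s (fun n hn => (hs n).1 hn)
  obtain ⟨ε, hε, hq⟩ := hunr
  have hpair : ChartUnitPair w (Bfin P E M q) c D D' 12 :=
    { pos := by norm_num
      eq := ⟨algebraMap (RE P E) (Bfin P E M q) (ε ^ 12), (hε.pow 12).map _, by
        rw [mul_eq_of_isD P E M q hD hD', hq, mul_pow, map_mul, map_pow, map_pow]⟩
      notMem₁ := hD'₁
      notMem₂ := hD₂ }
  exact th1_of_ssChart w (xE E M q) (Bfin P E M q) (chartCtx_bfin P E M q w hyp) c D D' 12 hpair s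
    (fun n hn => (hs n).1 hn) _ hsum hcount n ((hs n).2 hn)

/-- **R3 assembly**: `DEG0 + GUB ⟹ TH1` (MU is `mu`). -/
theorem th1_of_leaves (hDEG : Deg0Statement P E M q w) (hGUB : GubStatement P E M q w) :
    Th1Statement P E M q w :=
  th1_of_leaves' P E M q w (mu P E M q w) hDEG hGUB

end Fermat.Agent.S36.H803

end
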