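import Fermat.Agent.A2.Mod.Asm
import Fermat.Agent.S36.H438.Unit
import Fermat.Agent.S36.H803.OrdAt

/-!
# S36 / cell REG, route R3 (THICK1 by the squeeze) — CONCRETE interface (R3 owner: helper803)

Level `N = M * q`, `q ∤ M`, vocabulary of `Fermat/Agent/A2/Mod/{Spec,Asm}.lean`:
`B := chartAlg P E (M*q) x` the FINITE chart of `x = j · j_q` over `R_E = P ∩ E`,
`p₁ = B ∩ w V∞`, `p₂ = B ∩ w V₀` (`IsCut`), nodes = maximal ideals `n ⊇ p₁ + p₂`.

The modular unit pair: `D = q¹² Δ(t^q)/Δ(t)`, `D' = Δ(t)/Δ(t^q)` (`IsD`, `IsD'`; `D D' = q¹²`).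

## Leaves (each ONE `Prop`)

* `MuStatement`    (MU)   : `D, D' ∈ B`, `D' ∉ p₁`, `D ∉ p₂`.   PROVED in `R3Asm.lean` (`mu`)
                            from `H438.mu_package` (helper438, main).
* `Deg0Statement`  (DEG0) : the nodes form a finite set `s` and
                            `∑_{n ∈ s} ord_n(D | C₂) = (q - 1) ψ(M)`   (`ordAt p₂ n D`).
* `GubStatement`   (GUB+GEN) : at a RIGID level `M` (a prime `r ≡ 11 mod 12` divides `M`):
                            `12 · #nodes ≤ (q - 1) ψ(M)`.
* `Th1Statement`   (TH1)  : over an UNRAMIFIED base (`q = ε w`), at a rigid level, both components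
                            are locally principal at every node (the model is regular there).

## Assembly (proved in `R3Asm.lean`, sorry-free)

`th1_of_leaves : MU → DEG0 → GUB → TH1` in `R3Asm.lean`, via `th1_of_ssChart` (`Th1Alg.lean`,
abstract squeeze from `H996.ordLike_le` + `H996.hgen_of_ordLike_eq`).

All leaves carry the A2-MOD sub-assemblies `S1`, `S2`, `S3`, `DegStatement` and the level-`M`
hypothesis `GoodRedHyp` as HYPOTHESES (cite them or not, as convenient).
-/

set_option autoImplicit false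
set_option linter.unusedSectionVars false
set_option linter.unusedVariables false
set_option linter.style.haveILetI false
set_option synthInstance.maxHeartbeats 400000
set_option maxHeartbeats 1600000

noncomputable section

namespace Fermat.Agent.S36.H803

open ModularCurve Fermat.Agent.A2.Mod

/-- `M` is *rigid*: a prime `r ≡ 11 mod 12` divides `M` (no elliptic points on `X₀(M)`,
in any characteristic prime to `M`). -/
def Rigid (M : ℕ) : Prop := ∃ r : ℕ, r.Prime ∧ r % 12 = 11 ∧ r ∣ M

section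

variable (P : ValuationSubring Qb) (E : IntermediateField ℚ Qb) (M q : ℕ) [NeZero M] [NeZero q]
  (w : RE P E)

/-- The base is unramified at `q`: `q = ε w` with `ε` a unit of `R_E`. -/
def Unram : Prop := ∃ ε : RE P E, IsUnit ε ∧ ((q : ℕ) : RE P E) = ε * w

/-- The finite chart of level `M * q` (coordinate `x = j · j_q`). -/
abbrev Bfin : Subalgebra (RE P E) (FE E (M * q)) := chartAlg P E (M * q) (xE E M q)

/-- `D = q¹² Δ(t^q)/Δ(t)`, by its `t`-expansion (the shape of `H438.mu_package`;
`D = H438.dE E (M * q) q _`). -/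
def IsD (D : FE E (M * q)) : Prop :=
  (D : LaurentSeries E) =
    Fermat.Agent.S36.H438.castE E (((q : ℕ) : LaurentSeries ℤ) ^ 12 * Fermat.Agent.S28.unitL ℤ q)

/-- `D' = Δ(t)/Δ(t^q)`, by its `t`-expansion (`D' = H438.uE' E (M * q) q _`). -/
def IsD' (D' : FE E (M * q)) : Prop :=
  (D' : LaurentSeries E) = Fermat.Agent.S36.H438.castE E (Fermat.Agent.S28.H589.unitL' q)

/-- `n` is a node of the finite chart: a maximal ideal on both components. -/
def IsNode (p₁ p₂ n : Ideal (Bfin P E M q)) : Prop := n.IsMaximal ∧ p₁ ≤ n ∧ p₂ ≤ n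

/-- `p₁`, `p₂` are the two components of the special fibre of the finite chart
(`p₁` cut out by `V∞`, `p₂` by `V₀ = V∞ ∘ W`). -/
def IsComponents (p₁ p₂ : Ideal (Bfin P E M q)) : Prop :=
  ∃ (V : ValuationSubring (FE E (M * q))) (W : FE E (M * q) ≃ₐ[E] FE E (M * q)),
    IsVinf P E (M * q) V ∧ IsFricke E (M * q) W ∧
    IsCut P E (M * q) w V (Bfin P E M q) p₁ ∧
    IsCut P E (M * q) w (V.comap (W : FE E (M * q) →+* FE E (M * q))) (Bfin P E M q) p₂

/-- The standing hypotheses of every R3 leaf: the setting, a good level `E` (residue field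
algebraically closed), and the A2-MOD outputs at level `M * q`. -/
structure R3Hyp : Prop where
  setting : Setting P E M q w
  good : Fermat.Agent.A2.GoodField P E
  deg : DegStatement E M q
  s1 : S1Statement P E M q w
  s2 : S2Statement P E M q w
  s3 : S3Statement P E M q w
  vinfM : ∃ VM : ValuationSubring (FE E M), IsVinf P E M VM
  goodRed : GoodRedHyp P E M

/-- **Leaf MU** (modular unit): `D`, `D'` lie in the finite chart, `D'` is a unit along `C∞`
and `D` is a unit along `C₀`. -/
def MuStatement : Prop :=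
  R3Hyp P E M q w →
    ∃ D D' : Bfin P E M q, IsD E M q (D : FE E (M * q)) ∧ IsD' E M q (D' : FE E (M * q)) ∧
      ∀ p₁ p₂ : Ideal (Bfin P E M q), IsComponents P E M q w p₁ p₂ → D' ∉ p₁ ∧ D ∉ p₂

/-- **Leaf DEG0** (degree of the principal divisor of `D̄` on `C₀`): the nodes form a finite set
and `∑_{nodes} ord_n(D | C₀) = (q - 1) ψ(M)`. -/
def Deg0Statement : Prop :=
  R3Hyp P E M q w →
    ∀ D : Bfin P E M q, IsD E M q (D : FE E (M * q)) →
      ∀ p₁ p₂ : Ideal (Bfin P E M q), IsComponents P E M q w p₁ p₂ →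
        ∃ s : Finset (Ideal (Bfin P E M q)), (∀ n, n ∈ s ↔ IsNode P E M q p₁ p₂ n) ∧
          ∑ n ∈ s, ordAt p₂ n D = (((q - 1) * dedekindPsi M : ℕ) : ℕ∞)

/-- **Leaf GUB + GEN** (genus upper bound at a rigid level):
`12 · #nodes ≤ (q - 1) ψ(M)`. -/
def GubStatement : Prop :=
  R3Hyp P E M q w → Rigid M →
    ∀ p₁ p₂ : Ideal (Bfin P E M q), IsComponents P E M q w p₁ p₂ →
      ∀ s : Finset (Ideal (Bfin P E M q)), (∀ n ∈ s, IsNode P E M q p₁ p₂ n) →
        12 * s.card ≤ (q - 1) * dedekindPsi M

/-- **TH1** (thickness one): over an unramified base and at a rigid level, both components of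
the special fibre are locally principal at every node. -/
def Th1Statement : Prop :=
  R3Hyp P E M q w → Unram P E q w → Rigid M →
    ∀ p₁ p₂ : Ideal (Bfin P E M q), IsComponents P E M q w p₁ p₂ →
      ∀ n : Ideal (Bfin P E M q), IsNode P E M q p₁ p₂ n →
        (∃ x₁ ∈ p₁, ∀ a ∈ p₁, ∃ g : Bfin P E M q, g ∉ n ∧ ∃ b, g * a = x₁ * b) ∧
        (∃ x₂ ∈ p₂, ∀ a ∈ p₂, ∃ g : Bfin P E M q, g ∉ n ∧ ∃ b, g * a = x₂ * b)

end

end Fermat.Agent.S36.H803

end
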