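import Fermat.Agent.S36.H803.OrdAt
import Fermat.Agent.S36.H996.PUIneq
import Fermat.Agent.A2.Alg.H132.Vert

/-!
# S36 / R3 (helper803): the THICK1 squeeze, abstract form

`B` a noetherian integrally closed domain (a chart of the model), `p₁`, `p₂` the two components
of the special fibre `w = 0` (`p₁ ⊓ p₂ = (w)`, incomparable, transversal, `B ⧸ p₂` Dedekind),
`(D, D')` a *unit pair*: `D * D' = ε * w ^ N`, `D' ∉ p₁`, `D ∉ p₂`
(for `X₀(qM)`: `D = q¹² Δ(qz)/Δ(z)`, `D' = Δ(z)/Δ(qz)`, `N = 12`).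

* `ordAt_le` (local upper bound): `ord_n(D|C₂) ≤ N` at every node `n`.
* `th1_abs` (**squeeze**): if `s` is a finite set of nodes with
  `∑_{n ∈ s} ord_n(D|C₂) = Z` (DEG0) and `N * #s ≤ Z` (COUNT = GUB + GEN), then `p₁` is locally
  principal at every `n ∈ s`: the model is regular at `n` (thickness `1`).
* `th1_abs_snd`: then `p₂` is locally principal at `n` as well.

Inputs: `H996.ordLike_le`, `H996.hgen_of_ordLike_eq` (helper996), `A2.Alg.H132.vertVal`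
(helper132), `H849` Hartogs (helper849), `OrdAt.lean`.
-/

set_option autoImplicit false
set_option linter.unusedSectionVars false
set_option linter.unusedVariables false
set_option linter.style.haveILetI false

namespace Fermat.Agent.S36.H803

open Fermat.Agent.A2.H849 Fermat.Agent.A2.Alg.H132 Fermat.Agent.S36.H996

section Abs

variable {B : Type*} [CommRing B] [IsDomain B] [IsNoetherianRing B] [IsIntegrallyClosed B]
variable {F : Type*} [Field F] [Algebra B F] [IsFractionRing B F]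

/-- `w` is a uniformiser of the valuation ring of a component. -/
theorem irreducible_vert {w : B} {p q : Ideal B} (h : VertData w p q) :
    Irreducible (⟨algebraMap B F w, algebraMap_mem_vertVal h w⟩ : vertVal (F := F) h) := by
  have hwF : algebraMap B F w ≠ 0 := algebraMap_ne_zero h.w_ne
  set V := vertVal (F := F) h with hV
  haveI hdvr : IsDiscreteValuationRing V := (isLocDVR_vertVal h).dvr
  set wV : V := ⟨algebraMap B F w, algebraMap_mem_vertVal h w⟩ with hwV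
  have hwnu : ¬ IsUnit wV := by
    intro hu
    obtain ⟨u, hu⟩ := hu
    have h1 : ((u⁻¹ : Vˣ) : V) * wV = 1 := by rw [← hu]; exact Units.inv_mul u
    have h2 : (((u⁻¹ : Vˣ) : V) : F) * algebraMap B F w = 1 := congrArg Subtype.val h1
    have h3 : (algebraMap B F w)⁻¹ = (((u⁻¹ : Vˣ) : V) : F) :=
      (eq_inv_of_mul_eq_one_left h2).symm
    exact inv_notMem_vertVal h h.w_mem h.w_ne (h3 ▸ ((u⁻¹ : Vˣ) : V).2)
  have hgen : ∀ y : V, ¬ IsUnit y → wV ∣ y := by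
    intro y hy
    by_cases hy0 : y = 0
    · rw [hy0]; exact dvd_zero _
    have hyF : (y : F) ≠ 0 := fun h0 => hy0 (Subtype.ext h0)
    have hinv : (y : F)⁻¹ ∉ V := by
      intro hmem
      apply hy
      refine IsUnit.of_mul_eq_one ⟨(y : F)⁻¹, hmem⟩ ?_
      exact Subtype.ext (mul_inv_cancel₀ hyF)
    refine ⟨⟨(y : F) * (algebraMap B F w)⁻¹, mul_inv_mem_vertVal h y.2 hinv⟩, ?_⟩
    apply Subtype.ext
    show (y : F) = algebraMap B F w * ((y : F) * (algebraMap B F w)⁻¹)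
    field_simp
  rw [IsDiscreteValuationRing.irreducible_iff_uniformizer]
  apply le_antisymm
  · intro y hy
    rw [Ideal.mem_span_singleton]
    exact hgen y ((IsLocalRing.mem_maximalIdeal y).1 hy)
  · rw [Ideal.span_le, Set.singleton_subset_iff]
    exact (IsLocalRing.mem_maximalIdeal wV).2 hwnu

variable (w : B) (p₁ p₂ : Ideal B) [hp₁ : p₁.IsPrime] [hp₂ : p₂.IsPrime]

/-- The standing hypotheses on the unit pair, bundled. -/
structure UnitPair (D D' : B) (N : ℕ) : Prop where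
  w_ne : w ≠ 0
  inf_eq : p₁ ⊓ p₂ = Ideal.span {w}
  not_le₁₂ : ¬ p₁ ≤ p₂
  not_le₂₁ : ¬ p₂ ≤ p₁
  pos : 0 < N
  eq : ∃ ε : B, IsUnit ε ∧ D * D' = ε * w ^ N
  notMem₁ : D' ∉ p₁
  notMem₂ : D ∉ p₂

variable {w p₁ p₂}

theorem UnitPair.vertData {D D' : B} {N : ℕ} (h : UnitPair w p₁ p₂ D D' N) :
    VertData w p₁ p₂ :=
  ⟨hp₁, h.w_ne, h.not_le₂₁, h.inf_eq⟩

theorem UnitPair.w_mem₁ {D D' : B} {N : ℕ} (h : UnitPair w p₁ p₂ D D' N) : w ∈ p₁ :=
  h.vertData.w_mem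

theorem UnitPair.w_mem₂ {D D' : B} {N : ℕ} (h : UnitPair w p₁ p₂ D D' N) : w ∈ p₂ :=
  h.vertData.w_mem'

/-- `D` is a unit at every height-one prime other than `p₁`. -/
theorem UnitPair.notMem_of_isLocDVR {D D' : B} {N : ℕ} (h : UnitPair w p₁ p₂ D D' N)
    (O' : ValuationSubring F) (P' : Ideal B) (hO' : IsLocDVR O' P') (hne : P' ≠ p₁) :
    D ∉ P' := by
  intro hD
  have hP' := hO'.prime
  obtain ⟨ε, hε, heq⟩ := h.eq
  have h1 : ε * w ^ N ∈ P' := by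
    rw [← heq]
    exact P'.mul_mem_right _ hD
  have hεP : ε ∉ P' := fun hmem => hP'.ne_top (Ideal.eq_top_of_isUnit_mem _ hmem hε)
  have h2 : w ^ N ∈ P' := (hP'.mem_or_mem h1).resolve_left hεP
  have h3 : w ∈ P' := hP'.mem_of_pow_mem N h2
  have h4 : p₁ ⊓ p₂ ≤ P' := by
    rw [h.inf_eq, Ideal.span_le, Set.singleton_subset_iff]
    exact h3
  have hp₁0 : p₁ ≠ ⊥ := fun h0 => h.w_ne (by simpa [h0] using h.w_mem₁)
  have hp₂0 : p₂ ≠ ⊥ := fun h0 => h.w_ne (by simpa [h0] using h.w_mem₂)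
  rcases (Ideal.IsPrime.inf_le hP').1 h4 with h5 | h5
  · exact hne (hO'.height_one p₁ hp₁ hp₁0 h5).symm
  · have h6 : p₂ = P' := hO'.height_one p₂ hp₂ hp₂0 h5
    exact h.notMem₂ (h6 ▸ hD)

/-- `D = u * w ^ N` with `u` a unit of the valuation ring of `p₁`. -/
theorem UnitPair.exists_unit {D D' : B} {N : ℕ} (h : UnitPair w p₁ p₂ D D' N) :
    ∃ u : (vertVal (F := F) h.vertData)ˣ,
      algebraMap B F D = ((u : vertVal (F := F) h.vertData) : F) * (algebraMap B F w) ^ N := by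
  obtain ⟨ε, hε, heq⟩ := h.eq
  set V := vertVal (F := F) h.vertData with hV
  have hD'0 : D' ≠ 0 := fun h0 => h.notMem₁ (h0 ▸ p₁.zero_mem)
  have hD'F : algebraMap B F D' ≠ 0 := algebraMap_ne_zero hD'0
  obtain ⟨ε', hε'⟩ := hε.exists_right_inv
  have hεF : algebraMap B F ε * algebraMap B F ε' = 1 := by
    rw [← map_mul, hε', map_one]
  have hεF0 : algebraMap B F ε ≠ 0 := left_ne_zero_of_mul_eq_one hεF
  -- the unit `u = ε / D'`
  let a : V := ⟨algebraMap B F ε * (algebraMap B F D')⁻¹,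
    V.mul_mem _ _ (algebraMap_mem_vertVal h.vertData ε) (inv_mem_vertVal h.vertData h.notMem₁)⟩
  let b : V := ⟨algebraMap B F ε' * algebraMap B F D',
    V.mul_mem _ _ (algebraMap_mem_vertVal h.vertData ε') (algebraMap_mem_vertVal h.vertData D')⟩
  have hab : a * b = 1 := by
    apply Subtype.ext
    show algebraMap B F ε * (algebraMap B F D')⁻¹ * (algebraMap B F ε' * algebraMap B F D') = 1
    calc algebraMap B F ε * (algebraMap B F D')⁻¹ * (algebraMap B F ε' * algebraMap B F D')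
        = (algebraMap B F ε * algebraMap B F ε') *
            ((algebraMap B F D')⁻¹ * algebraMap B F D') := by ring
      _ = 1 := by rw [hεF, inv_mul_cancel₀ hD'F, one_mul]
  have hba : b * a = 1 := by rw [mul_comm]; exact hab
  refine ⟨⟨a, b, hab, hba⟩, ?_⟩
  show algebraMap B F D = algebraMap B F ε * (algebraMap B F D')⁻¹ * (algebraMap B F w) ^ N
  have e : algebraMap B F D * algebraMap B F D' = algebraMap B F ε * (algebraMap B F w) ^ N := by
    rw [← map_mul, heq, map_mul, map_pow]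
  field_simp
  exact e

variable [IsDedekindDomain (B ⧸ p₂)]

/-- **Local upper bound** at a node: `ord_n(D|C₂) ≤ N`. -/
theorem UnitPair.ordAt_le (F : Type*) [Field F] [Algebra B F] [IsFractionRing B F]
    {D D' : B} {N : ℕ} (h : UnitPair w p₁ p₂ D D' N)
    (hrad : (p₁ ⊔ p₂).IsRadical)
    (n : Ideal B) [hn : n.IsMaximal] (h₁ : p₁ ≤ n) (h₂ : p₂ ≤ n) :
    ordAt p₂ n D ≤ N := by
  have hne : ∃ a ∈ n, a ∉ p₂ := by
    obtain ⟨a, ha, ha'⟩ := Set.not_subset.1 h.not_le₁₂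
    exact ⟨a, h₁ ha, ha'⟩
  obtain ⟨x, hx₁, hx⟩ := exists_mem_ordAt_eq_one p₂ n h₂ p₁ h₁ h.not_le₁₂ hrad
  have hx0 : x ≠ 0 := by
    rintro rfl
    have : ordAt p₂ n (0 : B) = ⊤ := (ordAt_eq_top_iff p₂ n h₂ hne 0).2 p₂.zero_mem
    rw [this] at hx
    exact ENat.top_ne_one hx
  obtain ⟨u, hu⟩ := h.exists_unit (F := F)
  have key := ordLike_le (B := B) (F := F) n (vertVal (F := F) h.vertData) p₁
    (isLocDVR_vertVal h.vertData) h₁ D x N
    (fun O' P' hO' _ hne' => h.notMem_of_isLocDVR O' P' hO' hne')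
    ⟨algebraMap B F w, algebraMap_mem_vertVal h.vertData w⟩ (irreducible_vert h.vertData) u hu
    hx₁ hx0 (ordAt p₂ n) (ordAt_mul p₂ n h₂ hne)
    (fun a ha => ordAt_eq_zero_of_notMem p₂ n h₂ ha)
  rw [hx, mul_one] at key
  exact key

/-- **The THICK1 squeeze.**  DEG0 + COUNT ⟹ `p₁` is locally principal at every node of `s`. -/
theorem UnitPair.th1_abs (F : Type*) [Field F] [Algebra B F] [IsFractionRing B F]
    {D D' : B} {N : ℕ} (h : UnitPair w p₁ p₂ D D' N)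
    (hrad : (p₁ ⊔ p₂).IsRadical)
    (s : Finset (Ideal B)) (hs : ∀ n ∈ s, n.IsMaximal ∧ p₁ ≤ n ∧ p₂ ≤ n)
    (Z : ℕ) (hdeg : ∑ n ∈ s, ordAt p₂ n D = Z) (hcount : N * s.card ≤ Z) :
    ∀ n ∈ s, ∃ x ∈ p₁, ∀ a ∈ p₁, ∃ g : B, g ∉ n ∧ ∃ c : B, g * a = x * c := by
  classical
  -- every term is `≤ N`
  have hle : ∀ n ∈ s, ordAt p₂ n D ≤ N := by
    intro n hn
    obtain ⟨hmax, h₁, h₂⟩ := hs n hn
    haveI := hmax
    exact h.ordAt_le F hrad n h₁ h₂
  -- pass to natural numbers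
  have hnat : ∀ n ∈ s, ((ordAt p₂ n D).toNat : ℕ∞) = ordAt p₂ n D := by
    intro n hn
    exact ENat.natCast_toNat (ne_top_of_le_ne_top (ENat.natCast_ne_top N) (hle n hn))
  have hsum : ∑ n ∈ s, (ordAt p₂ n D).toNat = Z := by
    have h1 : ((∑ n ∈ s, (ordAt p₂ n D).toNat : ℕ) : ℕ∞) = (Z : ℕ∞) := by
      rw [Nat.cast_sum, ← hdeg]
      exact Finset.sum_congr rfl hnat
    exact_mod_cast h1
  have hle' : ∀ n ∈ s, (ordAt p₂ n D).toNat ≤ N := by
    intro n hn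
    have := hle n hn
    rw [← hnat n hn] at this
    exact_mod_cast this
  -- all terms are equal to `N`
  have heq : ∀ n ∈ s, (ordAt p₂ n D).toNat = N := by
    by_contra hcon
    push Not at hcon
    obtain ⟨n₀, hn₀, hne₀⟩ := hcon
    have hlt : ∑ n ∈ s, (ordAt p₂ n D).toNat < ∑ _n ∈ s, N :=
      Finset.sum_lt_sum hle' ⟨n₀, hn₀, lt_of_le_of_ne (hle' n₀ hn₀) hne₀⟩
    rw [Finset.sum_const, smul_eq_mul, hsum, mul_comm] at hlt
    omega
  intro n hn
  obtain ⟨hmax, h₁, h₂⟩ := hs n hn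
  haveI := hmax
  have hne : ∃ a ∈ n, a ∉ p₂ := by
    obtain ⟨a, ha, ha'⟩ := Set.not_subset.1 h.not_le₁₂
    exact ⟨a, h₁ ha, ha'⟩
  obtain ⟨x, hx₁, hx⟩ := exists_mem_ordAt_eq_one p₂ n h₂ p₁ h₁ h.not_le₁₂ hrad
  have hx0 : x ≠ 0 := by
    rintro rfl
    have : ordAt p₂ n (0 : B) = ⊤ := (ordAt_eq_top_iff p₂ n h₂ hne 0).2 p₂.zero_mem
    rw [this] at hx
    exact ENat.top_ne_one hx
  obtain ⟨u, hu⟩ := h.exists_unit (F := F)
  have hνD : ordAt p₂ n D = (N : ℕ∞) := by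
    rw [← hnat n hn, heq n hn]
  refine ⟨x, hx₁, ?_⟩
  exact hgen_of_ordLike_eq (B := B) (F := F) n (vertVal (F := F) h.vertData) p₁
    (isLocDVR_vertVal h.vertData) h₁ D x N h.pos
    (fun O' P' hO' _ hne' => h.notMem_of_isLocDVR O' P' hO' hne')
    ⟨algebraMap B F w, algebraMap_mem_vertVal h.vertData w⟩ (irreducible_vert h.vertData) u hu
    hx₁ hx0 (ordAt p₂ n) (ordAt_mul p₂ n h₂ hne)
    (fun a ha => ordAt_eq_zero_of_notMem p₂ n h₂ ha)
    (fun a ha => one_le_ordAt_of_mem p₂ n h₂ ha)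
    N h.pos hνD (by rw [hx, mul_one])

omit [IsNoetherianRing B] [IsIntegrallyClosed B] [IsDedekindDomain (B ⧸ p₂)] in
/-- If `p₁` is locally generated by `x` at `n`, then `p₂` is locally generated by the
complementary factor of `w`. -/
theorem snd_of_fst (hinf : p₁ ⊓ p₂ = Ideal.span {w}) (h12 : ¬ p₁ ≤ p₂)
    (n : Ideal B) [hn : n.IsPrime] (h₂ : p₂ ≤ n) (x : B) (hx₁ : x ∈ p₁)
    (hgen : ∀ a ∈ p₁, ∃ g : B, g ∉ n ∧ ∃ c : B, g * a = x * c) :
    ∃ y ∈ p₂, (∃ g : B, g ∉ n ∧ g * w = x * y) ∧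
      ∀ b ∈ p₂, ∃ g : B, g ∉ n ∧ ∃ c : B, g * b = y * c := by
  have hw₁ : w ∈ p₁ := (inf_le_left : p₁ ⊓ p₂ ≤ p₁) (hinf ▸ Ideal.mem_span_singleton_self w)
  have hw₂ : w ∈ p₂ := (inf_le_right : p₁ ⊓ p₂ ≤ p₂) (hinf ▸ Ideal.mem_span_singleton_self w)
  -- `x ∉ p₂`
  have hx₂ : x ∉ p₂ := by
    intro hx₂
    apply h12
    intro a ha
    obtain ⟨g, hg, c, hc⟩ := hgen a ha
    have h1 : g * a ∈ p₂ := by rw [hc]; exact p₂.mul_mem_right _ hx₂
    exact (hp₂.mem_or_mem h1).resolve_left (fun hmem => hg (h₂ hmem))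
  have hx0 : x ≠ 0 := fun h0 => hx₂ (h0 ▸ p₂.zero_mem)
  obtain ⟨g, hg, y, hy⟩ := hgen w hw₁
  have hy₂ : y ∈ p₂ := by
    have h1 : x * y ∈ p₂ := by rw [← hy]; exact p₂.mul_mem_left _ hw₂
    exact (hp₂.mem_or_mem h1).resolve_left hx₂
  refine ⟨y, hy₂, ⟨g, hg, hy⟩, fun b hb => ?_⟩
  have h1 : x * b ∈ p₁ ⊓ p₂ := ⟨p₁.mul_mem_right _ hx₁, p₂.mul_mem_left _ hb⟩
  rw [hinf, Ideal.mem_span_singleton] at h1
  obtain ⟨t, ht⟩ := h1
  refine ⟨g, hg, t, ?_⟩
  apply mul_left_cancel₀ hx0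
  calc x * (g * b) = g * (x * b) := by ring
    _ = g * (w * t) := by rw [ht]
    _ = (g * w) * t := by ring
    _ = (x * y) * t := by rw [hy]
    _ = x * (y * t) := by ring

end Abs

end Fermat.Agent.S36.H803
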